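import Fermat.Agent.MehtaIntegral.Tools

/-!
# Selberg's moment identity for negative parameters

Cleared of denominators both sides are polynomials in `α` and `γ = α + β`; at `α = -B` and
`γ = a + 1 - (n - 1) k` the moments become binomial coefficients.
-/

set_option autoImplicit false

noncomputable section

namespace FA.MorrisIdentity

open Finset MvPolynomial
open FA.SelbergIntegral (vandPow prodMap prodMap_eq_sum betaMap betaMap_vandPow selbergForm moment
  rise rise_zero rise_succ rise_succ' rise_add rise_pos rise_one)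
open FA.MehtaIntegral (sum_exponents)

variable {n k : ℕ}

/-- A polynomial function. -/
def IsPolyFun (f : ℝ → ℝ) : Prop := ∃ p : Polynomial ℝ, ∀ x, f x = p.eval x

theorem isPolyFun_const (c : ℝ) : IsPolyFun fun _ => c :=
  ⟨Polynomial.C c, fun x => by simp⟩

theorem isPolyFun_affine (s c : ℝ) : IsPolyFun fun x => s * x + c :=
  ⟨Polynomial.C s * Polynomial.X + Polynomial.C c, fun x => by simp⟩

theorem IsPolyFun.mul' {f g : ℝ → ℝ} (hf : IsPolyFun f) (hg : IsPolyFun g) :
    IsPolyFun fun x => f x * g x := by
  obtain ⟨p, h⟩ := hf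
  obtain ⟨q, h'⟩ := hg
  exact ⟨p * q, fun x => by simp [h, h']⟩

theorem isPolyFun_prod {ι : Type*} (s : Finset ι) (f : ι → ℝ → ℝ)
    (h : ∀ i ∈ s, IsPolyFun (f i)) : IsPolyFun fun x => ∏ i ∈ s, f i x := by
  choose! p hp using h
  exact ⟨∏ i ∈ s, p i, fun x => by
    rw [Polynomial.eval_prod]; exact prod_congr rfl fun i hi => hp i hi x⟩

theorem isPolyFun_sum {ι : Type*} (s : Finset ι) (f : ι → ℝ → ℝ)
    (h : ∀ i ∈ s, IsPolyFun (f i)) : IsPolyFun fun x => ∑ i ∈ s, f i x := by
  choose! p hp using h
  exact ⟨∑ i ∈ s, p i, fun x => by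
    rw [Polynomial.eval_finsetSum]; exact sum_congr rfl fun i hi => hp i hi x⟩

theorem isPolyFun_rise (s c : ℝ) (m : ℕ) : IsPolyFun fun x => rise (s * x + c) m := by
  simp only [rise, add_assoc]
  exact isPolyFun_prod _ _ fun i _ => isPolyFun_affine _ _

theorem IsPolyFun.eq_of_eqOn {f g : ℝ → ℝ} (hf : IsPolyFun f) (hg : IsPolyFun g) {s : Set ℝ}
    (hs : s.Infinite) (h : Set.EqOn f g s) (x : ℝ) : f x = g x := by
  obtain ⟨p, hp⟩ := hf
  obtain ⟨q, hq⟩ := hg
  rw [hp, hq, Polynomial.eq_of_infinite_eval_eq p q
    (hs.mono fun y hy => by simpa [← hp, ← hq] using h hy)]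

/-- The left side, cleared of denominators. -/
def momentSide (n k N : ℕ) (α γ : ℝ) : ℝ :=
  ∑ m ∈ (vandPow n k).support,
    coeff m (vandPow n k) * ∏ i, rise α (m i) * rise (γ + m i) (N - m i)

/-- The right side, cleared of denominators. -/
def formSide (n k N : ℕ) (α γ : ℝ) : ℝ :=
  ∏ j ∈ range n, rise α (j * k) * rise (γ - α) (j * k) *
    rise (γ + ((n + j - 1) * k : ℕ)) (N - (n + j - 1) * k) *
      (((j + 1) * k).factorial / k.factorial)

theorem index_le (j : ℕ) (hj : j ∈ range n) {N : ℕ} (hN : n * (n - 1) * k + 2 * n * k ≤ N) :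
    (n + j - 1) * k ≤ N := by
  have := mem_range.1 hj
  have : (n + j - 1) * k ≤ 2 * n * k := Nat.mul_le_mul_right k (by omega)
  omega

theorem exponent_le {m : Fin n →₀ ℕ} (hm : m ∈ (vandPow n k).support) (i : Fin n) {N : ℕ}
    (hN : n * (n - 1) * k + 2 * n * k ≤ N) : m i ≤ N := by
  have := single_le_sum (f := fun i => m i) (fun _ _ => Nat.zero_le _) (mem_univ i)
  rw [sum_exponents hm] at this
  omega

theorem sides_of_pos {α γ : ℝ} (hα : 0 < α) (hγ : α < γ) {N : ℕ}
    (hN : n * (n - 1) * k + 2 * n * k ≤ N) : momentSide n k N α γ = formSide n k N α γ := by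
  have hg : 0 < γ := hα.trans hγ
  have hs : ∀ m, m ≤ N → rise (γ + m) (N - m) = rise γ N / rise γ m := fun m hm => by
    rw [eq_div_iff (rise_pos hg m).ne', mul_comm, ← rise_add, Nat.add_sub_cancel' hm]
  have h := betaMap_vandPow n k (sub_pos.2 hγ) hα
  rw [betaMap, prodMap_eq_sum, selbergForm, add_sub_cancel] at h
  have h' := congrArg (· * rise γ N ^ n) h
  simp only [sum_mul, pow_eq_prod_const, ← prod_mul_distrib] at h'
  rw [momentSide, formSide]
  refine Eq.trans (sum_congr rfl fun m hm => ?_) (h'.trans (prod_congr rfl fun j hj => ?_))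
  · rw [mul_assoc, show ∏ _j ∈ range n, rise γ N = ∏ _i : Fin n, rise γ N by simp,
      ← prod_mul_distrib]
    refine congrArg _ (prod_congr rfl fun i _ => ?_)
    rw [hs _ (exponent_le hm i hN), moment, add_sub_cancel]
    ring
  · rw [hs _ (index_le j hj hN)]
    ring

/-- **The continued identity.** -/
theorem sides_eq (α γ : ℝ) {N : ℕ} (hN : n * (n - 1) * k + 2 * n * k ≤ N) :
    momentSide n k N α γ = formSide n k N α γ := by
  have ha : ∀ γ : ℝ, 0 < γ → ∀ α, momentSide n k N α γ = formSide n k N α γ := by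
    intro γ hγ
    refine IsPolyFun.eq_of_eqOn ?_ ?_ (Set.Ioo_infinite hγ) fun x hx => sides_of_pos hx.1 hx.2 hN
    · refine isPolyFun_sum _ _ fun m _ =>
        (isPolyFun_const _).mul' (isPolyFun_prod _ _ fun i _ => ?_)
      have h := isPolyFun_rise 1 0 (m i)
      simp only [one_mul, add_zero] at h
      exact h.mul' (isPolyFun_const _)
    · refine isPolyFun_prod _ _ fun j _ => ?_
      have h := isPolyFun_rise 1 0 (j * k)
      have h' := isPolyFun_rise (-1) γ (j * k)
      simp only [one_mul, add_zero, neg_one_mul, neg_add_eq_sub] at h h'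
      exact ((h.mul' h').mul' (isPolyFun_const _)).mul' (isPolyFun_const _)
  refine IsPolyFun.eq_of_eqOn (f := fun x => momentSide n k N α x)
    (g := fun x => formSide n k N α x) ?_ ?_ (Set.Ioi_infinite 0) (fun x hx => ha x hx α) γ
  · refine isPolyFun_sum _ _ fun m _ => (isPolyFun_const _).mul' (isPolyFun_prod _ _ fun i _ => ?_)
    have h := isPolyFun_rise 1 (m i) (N - m i)
    simp only [one_mul] at h
    exact (isPolyFun_const _).mul' h
  · refine isPolyFun_prod _ _ fun j _ => ?_
    have h := isPolyFun_rise 1 (-α) (j * k)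
    have h' := isPolyFun_rise 1 ((n + j - 1) * k : ℕ) (N - (n + j - 1) * k)
    simp only [one_mul, ← sub_eq_add_neg] at h h'
    exact (((isPolyFun_const _).mul' h).mul' h').mul' (isPolyFun_const _)

theorem rise_neg_natCast (B m : ℕ) :
    rise (-(B : ℝ)) m = (-1) ^ m * (B.descFactorial m : ℝ) := by
  induction m with
  | zero => simp [rise_zero]
  | succ m ih =>
    rw [rise_succ, ih, Nat.descFactorial_succ]
    rcases le_or_gt m B with h | h
    · push_cast [Nat.cast_sub h]
      ring
    · simp [Nat.descFactorial_eq_zero_iff_lt.2 h]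

theorem rise_top (A l : ℕ) : rise ((A : ℝ) + 1 - l) l = A.descFactorial l := by
  induction l with
  | zero => simp [rise_zero]
  | succ l ih =>
    rw [rise_succ', Nat.descFactorial_succ]
    push_cast
    rw [show (A : ℝ) + 1 - (l + 1) + 1 = A + 1 - l by ring, ih]
    rcases le_or_gt l A with h | h
    · push_cast [Nat.cast_sub h]
      ring
    · simp [Nat.descFactorial_eq_zero_iff_lt.2 h]

theorem rise_succ_natCast (c m : ℕ) :
    (c.factorial : ℝ) * rise ((c : ℝ) + 1) m = (c + m).factorial := by
  rw [← rise_one c, ← rise_one (c + m), rise_add, add_comm (1 : ℝ)]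

/-- The binomial coefficient attached to the exponent `m`. -/
def binomWeight (L B m : ℕ) : ℝ := if m ≤ B then (L.choose (B - m) : ℝ) else 0

theorem choose_moment (a b D N m : ℕ) (hm : m ≤ N) (hD : D ≤ N) :
    (a + b).factorial * ((b + D).descFactorial m * (a + N - D).descFactorial (N - m)) =
      if m ≤ b + D then
        (b + D).factorial * (a + N - D).factorial * (a + b).choose (b + D - m) else 0 := by
  split_ifs with h
  · rcases lt_or_ge (a + m) D with h' | h'
    · rw [Nat.descFactorial_eq_zero_iff_lt.2 (show a + N - D < N - m by omega),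
        Nat.choose_eq_zero_of_lt (show a + b < b + D - m by omega)]
      simp
    · refine Nat.eq_of_mul_eq_mul_right
        (Nat.mul_pos (b + D - m).factorial_pos (a + m - D).factorial_pos) ?_
      have h1 := Nat.factorial_mul_descFactorial h
      have h2 := Nat.factorial_mul_descFactorial (show N - m ≤ a + N - D by omega)
      have h3 := Nat.choose_mul_factorial_mul_factorial (show b + D - m ≤ a + b by omega)
      rw [show a + N - D - (N - m) = a + m - D by omega] at h2
      rw [show a + b - (b + D - m) = a + m - D by omega] at h3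
      rw [← h1, ← h2, ← h3]
      ring
  · rw [Nat.descFactorial_eq_zero_iff_lt.2 (lt_of_not_ge h)]
    simp

/-- **Morris's identity as a sum of binomial coefficients.** -/
theorem sum_binomWeight (n k a b : ℕ) :
    ∑ m ∈ (vandPow n k).support,
        coeff m (vandPow n k) * ∏ i, binomWeight (a + b) (b + (n - 1) * k) (m i) =
      (-1) ^ (k * n.choose 2) * ∏ j ∈ range n,
        ((a + b + j * k).factorial * ((j + 1) * k).factorial : ℝ) /
          ((a + j * k).factorial * (b + j * k).factorial * k.factorial) := by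
  set N := n * (n - 1) * k + 2 * n * k with hN
  set D := (n - 1) * k with hD
  have hDN : D ≤ N := by
    have : (n - 1) * k ≤ 2 * n * k := Nat.mul_le_mul_right k (by omega)
    omega
  have h := sides_eq (n := n) (k := k) (-((b + D : ℕ) : ℝ)) ((a : ℝ) + 1 - D) (le_of_eq hN.symm)
  set Z : ℝ := (b + D).factorial * (a + N - D).factorial / (a + b).factorial with hZ
  have hne : Z ^ n ≠ 0 := pow_ne_zero _ (by rw [hZ]; positivity)
  refine mul_left_cancel₀ hne ?_
  rw [momentSide, formSide] at h
  refine Eq.trans ?_ (h.trans ?_)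
  · rw [mul_sum]
    refine sum_congr rfl fun m hm => ?_
    have hev : (1 : ℝ) = ∏ i, (-1 : ℝ) ^ m i := by
      rw [prod_pow_eq_pow_sum, sum_exponents hm, pow_mul, mul_comm n]
      rcases n.eq_zero_or_pos with rfl | hn
      · simp
      · rw [Even.neg_one_pow (by
          have := Nat.even_mul_pred_self n
          rwa [mul_comm] at this), one_pow]
    rw [mul_left_comm, show Z ^ n = ∏ _i : Fin n, Z by simp, ← prod_mul_distrib]
    refine congrArg _ ?_
    conv_lhs => rw [← one_mul (∏ _ ∈ _, _), hev, ← prod_mul_distrib]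
    refine prod_congr rfl fun i _ => ?_
    have hmN := exponent_le hm i (le_of_eq hN.symm)
    rw [rise_neg_natCast, show (a : ℝ) + 1 - D + m i = ((a + N - D : ℕ) : ℝ) + 1 - (N - m i : ℕ) by
      rw [Nat.cast_sub hmN, Nat.cast_sub (show D ≤ a + N by omega)]; push_cast; ring, rise_top]
    have hc : ((a + b).factorial : ℝ) *
        (((b + D).descFactorial (m i) : ℝ) * ((a + N - D).descFactorial (N - m i) : ℝ)) =
          ((b + D).factorial : ℝ) * (a + N - D).factorial * binomWeight (a + b) (b + D) (m i) := by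
      have := congrArg (fun z : ℕ => (z : ℝ)) (choose_moment a b D N (m i) hmN hDN)
      simp only [binomWeight]
      split_ifs with h' <;> simp [h'] at this ⊢ <;> exact this
    have : ((a + b).factorial : ℝ) ≠ 0 := by positivity
    rw [hZ, mul_assoc ((-1 : ℝ) ^ m i), div_mul_eq_mul_div, ← hc]
    field_simp
  · have hsign : ((-1 : ℝ)) ^ (k * n.choose 2) = ∏ j ∈ range n, (-1 : ℝ) ^ (j * k) := by
      rw [prod_pow_eq_pow_sum, ← sum_mul, sum_range_id, Nat.choose_two_right, mul_comm]
    have hrefl : ∏ j ∈ range n, ((b + j * k).factorial : ℝ) =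
        ∏ j ∈ range n, ((b + D - j * k).factorial : ℝ) := by
      rw [← prod_range_reflect]
      refine prod_congr rfl fun j hj => ?_
      rw [Nat.add_sub_assoc (Nat.mul_le_mul_right k (by have := mem_range.1 hj; omega)),
        ← Nat.sub_mul]
    have hV : ∏ j ∈ range n, ((a + b + j * k).factorial * ((j + 1) * k).factorial : ℝ) /
          ((a + j * k).factorial * (b + j * k).factorial * k.factorial) =
        ∏ j ∈ range n, ((a + b + j * k).factorial * ((j + 1) * k).factorial : ℝ) /
          ((a + j * k).factorial * (b + D - j * k).factorial * k.factorial) := by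
      simp only [prod_div_distrib, prod_mul_distrib, hrefl]
    rw [hV, hsign, pow_eq_prod_const, ← prod_mul_distrib, ← prod_mul_distrib]
    refine prod_congr rfl fun j hj => ?_
    have hj' := mem_range.1 hj
    have hq := index_le j hj (k := k) (le_of_eq hN.symm)
    have hjD : j * k ≤ D := Nat.mul_le_mul_right k (by omega)
    have hqe : (n + j - 1) * k = D + j * k := by
      rw [hD, show n + j - 1 = n - 1 + j by omega, add_mul]
    rw [hqe] at hq ⊢
    rw [rise_neg_natCast,
      show ((a : ℝ) + 1 - D - -((b + D : ℕ) : ℝ)) = ((a + b : ℕ) : ℝ) + 1 by push_cast; ring,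
      show (a : ℝ) + 1 - D + (D + j * k : ℕ) = ((a + j * k : ℕ) : ℝ) + 1 by push_cast; ring]
    have h1 := rise_succ_natCast (a + b) (j * k)
    have h2 := rise_succ_natCast (a + j * k) (N - (D + j * k))
    rw [show a + j * k + (N - (D + j * k)) = a + N - D by omega] at h2
    have h3 : ((b + D - j * k).factorial : ℝ) * (b + D).descFactorial (j * k) =
        (b + D).factorial := by
      exact_mod_cast Nat.factorial_mul_descFactorial (show j * k ≤ b + D by omega)
    rw [hZ, ← h1, ← h2, ← h3]
    field_simp

end FA.MorrisIdentity
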