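import Fermat.Agent.MorrisIdentity.Continuation
import Fermat.Agent.DysonConstantTerm.Circle

/-!
# The constant term and the average over the torus
-/

set_option autoImplicit false

noncomputable section

namespace FA.MorrisIdentity

open Finset MvPolynomial MeasureTheory
open FA.SelbergIntegral (vandPow vandPow_eq prodMap prodMap_eq_sum prodMap_monomial)
open FA.DysonConstantTerm (dysonPoly dysonExp dysonPoly_const dysonExp_const circleExp
  circleExp_conj prod_norm_sub_eq integral_torus_coeff)
open scoped Nat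

variable {n : ℕ}

/-- `∏ i, (1 - x i) ^ L`. -/
def linPower (n L : ℕ) : MvPolynomial (Fin n) ℝ := ∏ i, (1 - X i) ^ L

theorem coeff_linPower (L : ℕ) (e : Fin n →₀ ℕ) :
    coeff e (linPower n L) = ∏ i, (-1 : ℝ) ^ e i * L.choose (e i) := by
  have hexp : linPower n L = ∑ l ∈ Fintype.piFinset (fun _ : Fin n => range (L + 1)),
      monomial (Finsupp.equivFunOnFinite.symm l) (∏ i, (-1 : ℝ) ^ l i * L.choose (l i)) := by
    rw [linPower]
    simp only [sub_eq_add_neg, add_comm (1 : MvPolynomial (Fin n) ℝ), add_pow, one_pow, mul_one]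
    rw [prod_univ_sum]
    refine sum_congr rfl fun l _ => ?_
    rw [monomial_eq, Finsupp.prod_fintype _ _ (fun i => pow_zero _), map_prod, ← prod_mul_distrib]
    refine prod_congr rfl fun i _ => ?_
    rw [Finsupp.coe_equivFunOnFinite_symm, neg_pow, map_mul, map_pow, map_neg, map_one,
      map_natCast]
    ring
  rw [hexp, coeff_sum]
  simp only [coeff_monomial]
  by_cases he : (e : Fin n → ℕ) ∈ Fintype.piFinset (fun _ : Fin n => range (L + 1))
  · rw [sum_eq_single_of_mem (e : Fin n → ℕ) he, if_pos (Finsupp.equivFunOnFinite_symm_coe e)]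
    intro l _ hl
    rw [if_neg]
    intro h
    exact hl (by rw [← h, Finsupp.coe_equivFunOnFinite_symm])
  · rw [sum_eq_zero fun l hl => if_neg fun h => he (by
      rwa [← h, Finsupp.coe_equivFunOnFinite_symm])]
    simp only [Fintype.mem_piFinset, mem_range, not_forall, not_lt] at he
    obtain ⟨i, hi⟩ := he
    exact (prod_eq_zero (mem_univ i) (by rw [Nat.choose_eq_zero_of_lt (by omega)]; simp)).symm

theorem coeff_linPower_mul (L B : ℕ) (f : MvPolynomial (Fin n) ℝ) :
    coeff (Finsupp.equivFunOnFinite.symm fun _ => B) (linPower n L * f) =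
      prodMap (fun _ m => (-1 : ℝ) ^ (B - m) * binomWeight L B m) f := by
  induction f using MvPolynomial.induction_on' with
  | monomial m r =>
    rw [coeff_mul_monomial', prodMap_monomial]
    split_ifs with h
    · rw [coeff_linPower, mul_comm]
      refine congrArg _ (prod_congr rfl fun i _ => ?_)
      have hi : m i ≤ B := by simpa using h i
      simp [binomWeight, hi]
    · simp only [Finsupp.le_def, not_forall, Finsupp.coe_equivFunOnFinite_symm, not_le] at h
      obtain ⟨i, hi⟩ := h
      rw [prod_eq_zero (mem_univ i) (by simp [binomWeight, hi.not_ge]), mul_zero]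
  | add p q hp hq => rw [mul_add, coeff_add, hp, hq, map_add]

theorem coeff_linPower_vandPow (n k a b : ℕ) :
    coeff (Finsupp.equivFunOnFinite.symm fun _ => b + (n - 1) * k)
        (linPower n (a + b) * vandPow n k) =
      (-1) ^ (n * b + k * n.choose 2) * ∏ j ∈ range n,
        ((a + b + j * k)! * ((j + 1) * k)! : ℝ) /
          ((a + j * k)! * (b + j * k)! * k !) := by
  rw [coeff_linPower_mul, prodMap_eq_sum, pow_add, mul_assoc, ← sum_binomWeight, mul_sum]
  refine sum_congr rfl fun m hm => ?_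
  rw [prod_mul_distrib]
  by_cases hz : ∀ i, m i ≤ b + (n - 1) * k
  · rw [prod_pow_eq_pow_sum, sum_tsub_distrib _ (fun i _ => hz i), sum_const, card_univ,
      Fintype.card_fin, smul_eq_mul, FA.MehtaIntegral.sum_exponents hm, mul_add, mul_assoc,
      Nat.add_sub_cancel]
    ring
  · push Not at hz
    obtain ⟨i, hi⟩ := hz
    have : ∏ x, binomWeight (a + b) (b + (n - 1) * k) (m x) = 0 :=
      prod_eq_zero (mem_univ i) (by simp [binomWeight, hi.not_ge])
    rw [this]
    simp

/-- The polynomial of Morris's constant term. -/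
def morrisPoly (n a b k : ℕ) : MvPolynomial (Fin n) ℤ :=
  (∏ i, (1 - X i) ^ a * (X i - 1) ^ b) * dysonPoly (univ : Finset (Fin n)) fun _ => k

theorem map_morrisPoly (n a b k : ℕ) :
    MvPolynomial.map (Int.castRingHom ℝ) (morrisPoly n a b k) =
      C ((-1) ^ (n * b + k * n.choose 2)) * (linPower n (a + b) * vandPow n k) := by
  rw [morrisPoly, map_mul, map_prod, dysonPoly_const, vandPow_eq, linPower, mul_pow, ← pow_mul]
  simp only [map_mul, map_pow, map_sub, map_one, map_neg, map_prod, map_X, ← prod_pow, ← pow_mul]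
  rw [pow_add (-1 : MvPolynomial (Fin n) ℝ), mul_comm n b, pow_mul _ b n,
    show ((-1 : MvPolynomial (Fin n) ℝ) ^ b) ^ n = ∏ _i : Fin n, (-1) ^ b by simp,
    show ∏ i : Fin n, (1 - X i) ^ a * (X i - 1) ^ b =
      (∏ _i : Fin n, (-1 : MvPolynomial (Fin n) ℝ) ^ b) * ∏ i : Fin n, (1 - X i) ^ (a + b) by
        rw [← prod_mul_distrib]
        refine prod_congr rfl fun i _ => ?_
        rw [pow_add, ← mul_left_comm, ← mul_pow]
        ring,
    mul_comm (n.choose 2) k]
  ring

/-- **Morris's constant term identity.** -/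
theorem coeff_morrisPoly (n a b k : ℕ) :
    ((coeff (Finsupp.equivFunOnFinite.symm fun _ => b + (n - 1) * k) (morrisPoly n a b k) : ℤ) :
        ℝ) =
      ∏ j ∈ range n, ((a + b + j * k)! * ((j + 1) * k)! : ℝ) /
        ((a + j * k)! * (b + j * k)! * k !) := by
  have h := coeff_map (Int.castRingHom ℝ) (morrisPoly n a b k)
    (Finsupp.equivFunOnFinite.symm fun _ => b + (n - 1) * k)
  rw [map_morrisPoly, coeff_C_mul, coeff_linPower_vandPow, ← mul_assoc, ← pow_add, ← two_mul,
    pow_mul, neg_one_sq, one_pow, one_mul, Int.coe_castRingHom] at h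
  exact h.symm

theorem morris_weight_eq (a k : ℕ) (θ : Fin n → ℝ) :
    (((∏ i : Fin n, ‖1 - circleExp θ i‖ ^ (2 * a)) *
        ∏ i : Fin n, ∏ j ∈ Ioi i, ‖circleExp θ i - circleExp θ j‖ ^ (2 * k) : ℝ) : ℂ) =
      eval₂ (Int.castRingHom ℂ) (circleExp θ) (morrisPoly n a a k) /
        ∏ j, circleExp θ j ^
          (Finsupp.equivFunOnFinite.symm fun _ => a + (n - 1) * k : Fin n →₀ ℕ) j := by
  have hne : ∀ j, circleExp θ j ≠ 0 := fun j => Complex.exp_ne_zero _
  rw [Complex.ofReal_mul, prod_norm_sub_eq, morrisPoly, eval₂_mul]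
  simp only [Finsupp.coe_equivFunOnFinite_symm, dysonExp_const, pow_add, prod_mul_distrib]
  rw [← div_mul_div_comm]
  congr 1
  simp only [eval₂_prod, eval₂_mul, eval₂_pow, eval₂_sub, eval₂_one, eval₂_X, ← prod_mul_distrib,
    ← prod_div_distrib]
  push_cast
  refine prod_congr rfl fun i _ => ?_
  rw [pow_mul, ← Complex.mul_conj', map_sub, map_one, circleExp_conj, ← mul_pow, ← div_pow]
  congr 1
  have := hne i
  field_simp

/-- **Morris's integral.** -/
theorem integral_torus_morris (n a k : ℕ) :
    ∫ θ in Set.univ.pi fun _ : Fin n => Set.Icc (0 : ℝ) (2 * Real.pi),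
        (∏ i : Fin n, ‖1 - circleExp θ i‖ ^ (2 * a)) *
          ∏ i : Fin n, ∏ j ∈ Ioi i, ‖circleExp θ i - circleExp θ j‖ ^ (2 * k) =
      (2 * Real.pi) ^ n * ∏ j ∈ range n,
        ((2 * a + j * k)! * ((j + 1) * k)! : ℝ) / (((a + j * k)! : ℝ) ^ 2 * k !) := by
  apply Complex.ofReal_injective
  rw [← integral_complex_ofReal]
  simp only [morris_weight_eq]
  rw [integral_torus_coeff, ← Complex.ofReal_intCast, coeff_morrisPoly, mul_comm,
    ← Complex.ofReal_mul]
  congr 2
  refine prod_congr rfl fun j _ => ?_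
  rw [two_mul a, sq]

end FA.MorrisIdentity
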